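import Fermat.Agent.LT.T6.H675.QuatCoreHilbert
import Fermat.Agent.LT.T6.H526.NormIdx

/-!
# Row LT, tower T6, leaf T6.18i.5 `QuatCoreRamC385` (owner helper675): CLOSED, UNCONDITIONAL

`quatCoreRamC385_675 : H385.QuatCoreRamC385`, VERBATIM, all residue characteristics, from
* `QuatCoreHilbert.lean` (`quatCoreRam_of_normIdx675`, Hilbert symbol argument), and
* the norm index asset of helper526 (`LT/T6/H526/NormIdx.lean` sha256 3a81601e +
  `LocFld.lean` 5f9afb43, origin/helper526@c7e23f21a, byte-identical copies), which rests on the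
  local class field theory ON MAIN (`Fermat.Agent.S55.L.Closed.normIndexCyclic`).

Hence also `qcWildC675_675 : QcWildC675` (row T6.18i.5c).  OFF-MAIN.
-/

set_option autoImplicit false

open scoped Matrix

noncomputable section

namespace Fermat.Agent.LT.T6.H675

open Fermat.Agent.LT.T6 Fermat.Agent.LT.T6.H783 Fermat.Agent.LT.T6.H385

theorem isVal675_iff526 {k : Type} [Field k] (D a : k) :
    IsVal675 D a ↔ ∃ x y : k, x ^ 2 + 0 * x * y + (-D) * y ^ 2 = a := by
  constructor
  · rintro ⟨x, y, h⟩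
    exact ⟨x, y, by rw [h]; ring⟩
  · rintro ⟨x, y, h⟩
    exact ⟨x, y, by rw [← h]; ring⟩

/-- **The norm index theorem in the form used here** (from helper526 / local CFT of main). -/
theorem normIdxC675_of526 : NormIdxC675 := by
  intro k _ _ q hk D hD
  have hirr : ∀ x : k, x ^ 2 - 0 * x + (-D) ≠ 0 := fun x h =>
    hD ⟨x, by linear_combination -h⟩
  constructor
  · obtain ⟨a, ha0, hna⟩ := Fermat.Agent.LT.T6.H526.h526_norm_exists_non q hk 0 (-D) hirr
    refine ⟨a, ha0, fun h => ?_⟩
    obtain ⟨x, y, hxy⟩ := (isVal675_iff526 D a).mp h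
    exact hna x y hxy
  · intro a b ha hb
    rw [isVal675_iff526, isVal675_iff526, isVal675_iff526]
    exact Fermat.Agent.LT.T6.H526.h526_norm_mul_iff q hk 0 (-D) hirr a b ha hb

/-- **T6.18i.5 `QuatCoreRamC385`, UNCONDITIONAL.** -/
theorem quatCoreRamC385_675 : QuatCoreRamC385 :=
  quatCoreRam_of_normIdx675 normIdxC675_of526

/-- **T6.18i.5c `QcWildC675`, UNCONDITIONAL.** -/
theorem qcWildC675_675 : QcWildC675 :=
  qcWild_of_normIdx675 normIdxC675_of526

end Fermat.Agent.LT.T6.H675

end
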