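import Fermat.Agent.LT.T6.H675.QuatCoreTop

/-!
# Row LT, tower T6, leaf T6.18i.5 `QuatCoreRamC385` (owner helper675): SECOND ROUTE through the
# norm index of quadratic extensions (ALL residue characteristics) — OFF-MAIN

`NormIdxC675` : for a local field `k` and a non-square `D`, the nonzero values of `x² - D y²`
(the norms from `k(√D)`) form a subgroup of index `2` of `k^×`, in elementwise form:
(i) some `a ≠ 0` is not a value, (ii) `a b` is a value iff (`a` is a value iff `b` is a value).
(= `h526_norm_exists_non`, `h526_norm_mul_iff` of helper526 `LT/T6/H526/NormIdx.lean`, at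
`t = 0`, `n = -D`; from the local class field theory of main.)

`quatCoreRam_of_normIdx675 : NormIdxC675 → H385.QuatCoreRamC385` (no case distinction on `q`),
hence also `qcWild_of_normIdx675 : NormIdxC675 → QcWildC675`.

Proof (Hilbert symbol, elementary).  `V_D` = values of `x² - D y²`.  SYMMETRY: `a ∈ V_b ⟺
b ∈ V_a`.  With `θ² = c`, `Δ = disc γ`: `N ⊇ V_c` (norms from `k'`), `N ⊇ V_{Δ/c}` (third
field), `N` is closed under products.  Take `a ∉ V_Δ`; then `Δ ∉ V_a`, so exactly one of `c`,
`Δ/c` lies in `V_a`, i.e. `a` lies in exactly one of `V_c`, `V_{Δ/c}`; if `z` is not in the other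
one, `z a` is (product of two non-norms), and `z = (z a) · a · (a⁻¹)²`.
-/

set_option autoImplicit false

open scoped Matrix

noncomputable section

namespace Fermat.Agent.LT.T6.H675

open Fermat.Agent.LT.T6 Fermat.Agent.LT.T6.H783 Fermat.Agent.LT.T6.H385

/-- `a` is a value of the norm form `x² - D y²`. -/
def IsVal675 {k : Type} [Field k] (D a : k) : Prop := ∃ x y : k, a = x ^ 2 - D * y ^ 2

/-- **The norm index of a quadratic extension of a local field is `2`** (elementwise form). -/
def NormIdxC675 : Prop :=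
  ∀ (k : Type) [Field k] [Valued k Γ₀] (q : ℕ), IsLocalField k q →
    ∀ D : k, ¬ IsSquare D →
      (∃ a : k, a ≠ 0 ∧ ¬ IsVal675 D a) ∧
      ∀ a b : k, a ≠ 0 → b ≠ 0 → (IsVal675 D (a * b) ↔ (IsVal675 D a ↔ IsVal675 D b))

section Sym

variable {k : Type} [Field k]

/-- Symmetry of the Hilbert symbol. -/
theorem isVal_symm675 (h2 : (2 : k) ≠ 0) {a b : k} (ha : a ≠ 0) (h : IsVal675 b a) :
    IsVal675 a b := by
  obtain ⟨x, y, hxy⟩ := h
  by_cases hy : y = 0
  · have hx : x ≠ 0 := by
      rintro rfl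
      apply ha
      rw [hxy, hy]
      ring
    refine ⟨(b + 1) / 2, (1 - b) / (2 * x), ?_⟩
    rw [hxy, hy]
    field_simp
    ring
  · refine ⟨x / y, 1 / y, ?_⟩
    rw [hxy]
    field_simp
    ring

theorem isVal_sq675 (D : k) {r : k} : IsVal675 D (r ^ 2) := ⟨r, 0, by ring⟩

end Sym

section Norms

variable {k k' : Type} [Field k] [Field k']
variable (i : k →+* k') (s : k' ≃+* k') (γ : GL (Fin 2) k)

/-- The norms from `k' = k(θ)`: `x² - c y²`. -/
theorem isNm_first675 (hs : ∀ x : k, s (i x) = i x) (θ : k') (c : k)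
    (hθ : s θ = -θ) (hc : θ ^ 2 = i c) (x y : k) :
    IsNm675 (gam675 i γ) s (i (x ^ 2 - c * y ^ 2)) := by
  refine isNm675_iff _ s _ (i x + i y * θ) 0 ?_ (by simp)
  simp only [map_add, map_mul, hs, hθ, map_sub, map_pow, ← hc, map_zero]
  ring

theorem isNm_of_isVal_first675 (hs : ∀ x : k, s (i x) = i x) (θ : k') (c : k)
    (hθ : s θ = -θ) (hc : θ ^ 2 = i c) {a : k} (h : IsVal675 c a) :
    IsNm675 (gam675 i γ) s (i a) := by
  obtain ⟨x, y, rfl⟩ := h
  exact isNm_first675 i s γ hs θ c hθ hc x y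

theorem isNm_of_isVal_third675 (hs : ∀ x : k, s (i x) = i x) (θ : k') (c : k) (hθ0 : θ ≠ 0)
    (hθ : s θ = -θ) (hc : θ ^ 2 = i c) {a : k} (h : IsVal675 (disc γ / c) a) :
    IsNm675 (gam675 i γ) s (i a) := by
  obtain ⟨x, y, rfl⟩ := h
  exact isNm_third675 i s γ hs θ c hθ0 hθ hc x y

end Norms

/-- **`QuatCoreRamC385` from the norm index theorem** (all residue characteristics). -/
theorem quatCoreRam_of_normIdx675 (hN : NormIdxC675) : QuatCoreRamC385 := by
  rw [quatCoreRamC385_iff675]
  intro k k' _ _ _ _ q i s hQ z hz γ hreg hell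
  have hcyc := hQ.ext.cyc
  have hs : ∀ x : k, s (i x) = i x := hcyc.fix_i
  have hss : ∀ y : k', s (s y) = y := fun y => by
    have := hcyc.order y
    rwa [pow_two] at this
  have : CharZero k := hQ.hk.char0
  have : CharZero k' := hQ.hk'.char0
  have hiz : i z ≠ 0 := (map_ne_zero i).mpr hz
  have h2k : (2 : k) ≠ 0 := two_ne_zero
  have h2k' : (2 : k') ≠ 0 := two_ne_zero
  refine isCoreNorm_of_isNm675 i s hs γ z hiz ?_
  by_cases hroot : ∃ x : k', x ^ 2 - i (γ : Matrix (Fin 2) (Fin 2) k).trace * x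
      + i (γ : Matrix (Fin 2) (Fin 2) k).det = 0
  · obtain ⟨lam, hlam⟩ := hroot
    have hne : s lam ≠ lam := by
      intro hfix
      obtain ⟨x, hx⟩ := hcyc.fixed lam hfix
      apply hell
      refine ⟨x, i.injective ?_⟩
      rw [map_zero, map_add, map_sub, map_mul, map_pow, hx]
      exact hlam
    exact isNm_root675 i s γ hs hss lam hlam hne z
  · rw [not_exists] at hroot
    obtain ⟨y, hy⟩ := hcyc.faithful 1 one_pos one_lt_two
    rw [pow_one] at hy
    have hθ0 : y - s y ≠ 0 := sub_ne_zero.mpr (Ne.symm hy)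
    have hθ : s (y - s y) = -(y - s y) := by rw [map_sub, hss]; ring
    have hfix : s ((y - s y) ^ 2) = (y - s y) ^ 2 := by rw [map_pow, hθ]; ring
    obtain ⟨c, hc⟩ := hcyc.fixed _ hfix
    have hc0 : c ≠ 0 := by
      intro h0
      rw [h0, map_zero] at hc
      exact hθ0 ((pow_eq_zero_iff two_ne_zero).mp hc.symm)
    have hΔ0 : disc γ ≠ 0 := hreg.ne_zero
    have hΔsq : ¬ IsSquare (disc γ) := by
      rintro ⟨r, hr⟩
      apply hell
      refine ⟨((γ : Matrix (Fin 2) (Fin 2) k).trace + r) / 2, ?_⟩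
      unfold disc at hr
      field_simp
      linear_combination (-1 : k) * hr
    have hΔcsq : ¬ IsSquare (disc γ * c) := by
      rintro ⟨r, hr⟩
      apply hroot ((i (γ : Matrix (Fin 2) (Fin 2) k).trace + i r / (y - s y)) / 2)
      have hr' : i (disc γ) * (y - s y) ^ 2 = i r * i r := by
        rw [← hc, ← map_mul, ← map_mul, hr]
      unfold disc at hr'
      simp only [map_sub, map_mul, map_pow, map_ofNat] at hr'
      field_simp
      linear_combination (-1 : k') * hr'
    -- `c` and `Δ / c` are not squares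
    have hcsq : ¬ IsSquare c := by
      rintro ⟨r, hr⟩
      have h1 : (y - s y - i r) * (y - s y + i r) = 0 := by
        have : (y - s y) ^ 2 = i r * i r := by rw [← hc, hr, map_mul]
        linear_combination this
      have hfix' : s (y - s y) = y - s y := by
        rcases mul_eq_zero.mp h1 with h | h
        · have : y - s y = i r := by linear_combination h
          rw [this, hs]
        · have : y - s y = i (-r) := by rw [map_neg]; linear_combination h
          rw [this, hs]
      rw [hθ] at hfix'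
      apply hθ0
      have h2 : (2 : k') * (y - s y) = 0 := by linear_combination -hfix'
      exact (mul_eq_zero.mp h2).resolve_left h2k'
    have hdsq : ¬ IsSquare (disc γ / c) := by
      rintro ⟨r, hr⟩
      apply hΔcsq
      refine ⟨r * c, ?_⟩
      have : disc γ = r * r * c := by
        field_simp at hr
        linear_combination hr
      rw [this]
      ring
    have hd0 : disc γ / c ≠ 0 := div_ne_zero hΔ0 hc0
    have hΓ := gam675_map i s hs γ
    -- a non-norm of `k(√Δ)`
    obtain ⟨a, ha0, haΔ⟩ := (hN k q hQ.hk (disc γ) hΔsq).1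
    have hasq : ¬ IsSquare a := by
      rintro ⟨r, hr⟩
      exact haΔ ⟨r, 0, by rw [hr]; ring⟩
    have hΔa : ¬ IsVal675 a (disc γ) := fun h => haΔ (isVal_symm675 h2k hΔ0 h)
    have hsplit := (hN k q hQ.hk a hasq).2 c (disc γ / c) hc0 hd0
    rw [mul_div_cancel₀ _ hc0] at hsplit
    have hne : ¬ (IsVal675 a c ↔ IsVal675 a (disc γ / c)) := fun h => hΔa (hsplit.mpr h)
    have hai : i a ≠ 0 := (map_ne_zero i).mpr ha0
    -- `z = (z a) · a · (a⁻¹)²`
    have hzdecomp : i z = i (z * a) * i a * i (a⁻¹ ^ 2) := by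
      rw [← map_mul, ← map_mul]
      congr 1
      field_simp
    have hsqinv : IsNm675 (gam675 i γ) s (i (a⁻¹ ^ 2)) := isNm_sq675 i s γ hs a⁻¹
    have hza0 : z * a ≠ 0 := mul_ne_zero hz ha0
    by_cases hac : IsVal675 a c
    · -- `a ∈ V_c`, `a ∉ V_{Δ/c}`
      have had : ¬ IsVal675 a (disc γ / c) := fun h => hne ⟨fun _ => h, fun _ => hac⟩
      have h1 : IsVal675 c a := isVal_symm675 h2k hc0 hac
      have h2 : ¬ IsVal675 (disc γ / c) a := fun h => had (isVal_symm675 h2k ha0 h)
      by_cases hzv : IsVal675 (disc γ / c) z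
      · exact isNm_of_isVal_third675 i s γ hs _ c hθ0 hθ hc.symm hzv
      · have h3 : IsVal675 (disc γ / c) (z * a) :=
          ((hN k q hQ.hk (disc γ / c) hdsq).2 z a hz ha0).mpr
            ⟨fun h => absurd h hzv, fun h => absurd h h2⟩
        rw [hzdecomp]
        exact ((isNm_of_isVal_third675 i s γ hs _ c hθ0 hθ hc.symm h3).mul hΓ
          (isNm_of_isVal_first675 i s γ hs _ c hθ hc.symm h1)).mul hΓ hsqinv
    · -- `a ∉ V_c`, `a ∈ V_{Δ/c}`
      have had : IsVal675 a (disc γ / c) := by
        by_contra had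
        exact hne ⟨fun h => absurd h hac, fun h => absurd h had⟩
      have h1 : IsVal675 (disc γ / c) a := isVal_symm675 h2k hd0 had
      have h2 : ¬ IsVal675 c a := fun h => hac (isVal_symm675 h2k ha0 h)
      by_cases hzv : IsVal675 c z
      · exact isNm_of_isVal_first675 i s γ hs _ c hθ hc.symm hzv
      · have h3 : IsVal675 c (z * a) :=
          ((hN k q hQ.hk c hcsq).2 z a hz ha0).mpr
            ⟨fun h => absurd h hzv, fun h => absurd h h2⟩
        rw [hzdecomp]
        exact ((isNm_of_isVal_first675 i s γ hs _ c hθ hc.symm h3).mul hΓ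
          (isNm_of_isVal_third675 i s γ hs _ c hθ0 hθ hc.symm h1)).mul hΓ hsqinv

/-- The dyadic leaf from the norm index theorem. -/
theorem qcWild_of_normIdx675 (hN : NormIdxC675) : QcWildC675 :=
  fun k k' _ _ _ _ q i s hQ _ z hz γ hreg hell _ =>
    (quatCoreRamC385_iff675.mp (quatCoreRam_of_normIdx675 hN)) k k' q i s hQ z hz γ hreg hell

end Fermat.Agent.LT.T6.H675

end
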