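import Fermat.Agent.LT.T6.H385.QuatSpec

/-!
# Row LT, tower T6, leaf T6.18i.5 `QuatCoreRamC385` (owner helper675): SUB-SPEC — OFF-MAIN

Bytes: `LT/T6/H385/QuatSpec.lean` = helper385@3e19135ad (sha256 03a0bab8) and its closure
(`T6/Spec.lean` 8c5f2ae7, `H783/BadSpec.lean` c79abacc, `H288/HypSpec.lean` 46fc5f22,
`H159/NormSpec.lean` eef43064, `H159/VanishSpec.lean` 35587965), byte-identical copies.

`QuatCoreRamC385`: `k'/k` RAMIFIED quadratic, `γ ∈ GL₂(k)` regular elliptic, `z ∈ k^×`: there is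
`ζ = a + b γ`, `a, b ∈ k'`, with `ζ σ(ζ) = z`.

## The cut (top `quatCoreRam_of_leaves675` PROVED in `QuatCoreTop.lean`)

Let `t = tr γ`, `d = det γ`, `Δ = t² - 4d` (not a square in `k`), `θ ∈ k'` with `σ θ = -θ`,
`θ² = c ∈ k`.  `N = {z : ∃ ζ = a + bγ, ζ σ(ζ) = z}` is closed under products (the algebra
`k'[γ]` is commutative) and contains `m²` (`ζ = m`), `-c` (`ζ = θ`), `Δ` (`ζ = 2γ - t`) and
`x² - (Δ/c) y²` (`ζ = x + y θ⁻¹ (2γ - t)`): ALGEBRA, proved in `QuatCoreTop.lean`.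

* the characteristic polynomial of `γ` has a root `λ ∈ k'` (`k[γ] ≅ k'`): `ζ = a + bγ` with
  `b = (z - 1)/(λ - σλ)`, `a = 1 - b σλ`: ALGEBRA, proved in `QuatCoreTop.lean`.
* otherwise, TAME case (`q` odd):
  - `QcRamOddC675` : `ord c` is odd (`k'/k` is ramified; if `ord c` were even, `c = u m²` with `u`
    a unit which is not a square, hence not a square modulo `ϖ` (Hensel, `q` odd), and
    `v'(x + yθ)² = v(x² - c y²)² = max(v x, v(m y))⁴`: the value group of `k'` would be the one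
    of `k`, but `v'(i ϖ) = v(ϖ)²` and `k'` has an element of valuation `exp (-1)`).
  - `QcTameArithC675` : ARITHMETIC OF `k` ONLY: if `ord c` is odd and `Δ`, `Δ c` are not
    squares, every `z ∈ k^×` is `m² (-c)^{n₁} Δ^{n₂} (x² - (Δ/c) y²)`.
    (`ord Δ` even: `Δ = u₁ m²`, `u₁` a non-square unit; `z (-c)^{n₁}` has even order, its unit
    part is a square or `u₁ ·` square.  `ord Δ` odd: `Δ/c = u₀ m²`, `u₀` a non-square unit, and
    `x² - u₀ y²` represents every unit: count in the residue field + Hensel.)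
* otherwise, WILD case (`q` even): `QcWildC675` = the statement itself.  Needs the norm index
  theorem `[k^× : N k'^×] = 2` for the quadratic extensions of a dyadic field and the
  non-degeneracy of the Hilbert symbol.  NOT NEEDED BY THE WALL (`ℚ(√-3)/ℚ` is ramified at `3`
  only), but part of `QuatCoreRamC385` as typed.

All Props are TRUE statements of mathematics.  Definitions and frozen Props only.
-/

set_option autoImplicit false

open scoped Matrix

noncomputable section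

namespace Fermat.Agent.LT.T6.H675

open Fermat.Agent.LT.T6 Fermat.Agent.LT.T6.H783 Fermat.Agent.LT.T6.H385

/-- `z` is of the form `ζ σ(ζ)` with `ζ = a + b γ ∈ GL₂(k')`, `a, b ∈ k'` (the conclusion of
`H385.QuatCoreRamC385`). -/
def IsCoreNorm675 {k k' : Type} [Field k] [Field k'] (i : k →+* k') (s : k' ≃+* k')
    (γ : GL (Fin 2) k) (z : k) : Prop :=
  ∃ (ζ : GL (Fin 2) k') (a b : k'),
    (ζ : Matrix (Fin 2) (Fin 2) k') = a • (1 : Matrix (Fin 2) (Fin 2) k')
      + b • ((Matrix.GeneralLinearGroup.map i γ : GL (Fin 2) k') :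
          Matrix (Fin 2) (Fin 2) k') ∧
    (ζ : Matrix (Fin 2) (Fin 2) k') * ((glAut s ζ : GL (Fin 2) k') :
        Matrix (Fin 2) (Fin 2) k') = (i z) • (1 : Matrix (Fin 2) (Fin 2) k')

/-- **T6.18i.5a (the ramified quadratic extension is `k(√c)`, `ord c` odd), TAME.**
`k'/k` ramified quadratic, `q` odd, `θ ∈ k'^×` with `σ θ = -θ`, `θ² = c ∈ k`: `ord c` is odd. -/
def QcRamOddC675 : Prop :=
  ∀ (k k' : Type) [Field k] [Field k'] [Valued k Γ₀] [Valued k' Γ₀] (q : ℕ)
    (i : k →+* k') (s : k' ≃+* k'), QuadData385 k k' q 2 i s → Odd q →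
    ∀ (θ : k') (c : k), θ ≠ 0 → s θ = -θ → θ ^ 2 = i c → Odd (ord385 c)

/-- **T6.18i.5b (square classes of a non-dyadic local field), TAME, arithmetic of `k` only.**
`q` odd, `ord c` odd, `Δ` and `Δ c` not squares: every `z ∈ k^×` is
`m² (-c)^{n₁} Δ^{n₂} (x² - (Δ/c) y²)`. -/
def QcTameArithC675 : Prop :=
  ∀ (k : Type) [Field k] [Valued k Γ₀] (q : ℕ), IsLocalField k q → Odd q →
    ∀ c Δ : k, c ≠ 0 → Odd (ord385 c) → Δ ≠ 0 → ¬ IsSquare Δ → ¬ IsSquare (Δ * c) →
    ∀ z : k, z ≠ 0 →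
      ∃ (n₁ n₂ : ℕ) (m x y : k),
        z = m ^ 2 * (-c) ^ n₁ * Δ ^ n₂ * (x ^ 2 - Δ / c * y ^ 2)

/-- **T6.18i.5c (the statement in the WILD case: dyadic `k`, `k'[γ]` a field).**
Local class field theory for the quadratic extensions of a dyadic field.  Not needed by the
wall. -/
def QcWildC675 : Prop :=
  ∀ (k k' : Type) [Field k] [Field k'] [Valued k Γ₀] [Valued k' Γ₀] (q : ℕ)
    (i : k →+* k') (s : k' ≃+* k'), QuadData385 k k' q 2 i s → Even q →
    ∀ z : k, z ≠ 0 → ∀ γ : GL (Fin 2) k, IsReg γ → ¬ HasEigen k γ →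
      (∀ x : k', x ^ 2 - i (γ : Matrix (Fin 2) (Fin 2) k).trace * x
        + i (γ : Matrix (Fin 2) (Fin 2) k).det ≠ 0) →
      IsCoreNorm675 i s γ z

/-- `QuatCoreRamC385` in terms of `IsCoreNorm675` (definitional unfolding). -/
theorem quatCoreRamC385_iff675 :
    QuatCoreRamC385 ↔
      ∀ (k k' : Type) [Field k] [Field k'] [Valued k Γ₀] [Valued k' Γ₀] (q : ℕ)
        (i : k →+* k') (s : k' ≃+* k'), QuadData385 k k' q 2 i s →
        ∀ z : k, z ≠ 0 → ∀ γ : GL (Fin 2) k, IsReg γ → ¬ HasEigen k γ →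
          IsCoreNorm675 i s γ z :=
  Iff.rfl

end Fermat.Agent.LT.T6.H675

end
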