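import Fermat.Agent.LT.T6.H675.QuatCoreSpec

/-!
# Row LT, tower T6, leaf T6.18i.5 `QuatCoreRamC385` (owner helper675): the ALGEBRA and the TOP

`quatCoreRam_of_leaves675 : QcRamOddC675 → QcTameArithC675 → QcWildC675 → QuatCoreRamC385`.
OFF-MAIN.  No hole, nothing assumed.
-/

set_option autoImplicit false

open scoped Matrix

noncomputable section

namespace Fermat.Agent.LT.T6.H675

open Fermat.Agent.LT.T6 Fermat.Agent.LT.T6.H783 Fermat.Agent.LT.T6.H385

/-! ## The commutative algebra `k'[Γ]` inside `M₂(k')` -/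

section Alg

variable {F : Type} [Field F]

/-- `a + b Γ`. -/
def el675 (Γ : Matrix (Fin 2) (Fin 2) F) (a b : F) : Matrix (Fin 2) (Fin 2) F :=
  a • (1 : Matrix (Fin 2) (Fin 2) F) + b • Γ

/-- Cayley–Hamilton for `2 × 2` matrices. -/
theorem sq_eq675 (Γ : Matrix (Fin 2) (Fin 2) F) :
    Γ * Γ = Γ.trace • Γ - Γ.det • (1 : Matrix (Fin 2) (Fin 2) F) := by
  ext i j
  fin_cases i <;> fin_cases j <;>
    simp [Matrix.mul_apply, Fin.sum_univ_two, Matrix.trace, Matrix.det_fin_two] <;> ring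

theorem el675_mul (Γ : Matrix (Fin 2) (Fin 2) F) (a b a' b' : F) :
    el675 Γ a b * el675 Γ a' b'
      = el675 Γ (a * a' - Γ.det * (b * b')) (a * b' + b * a' + Γ.trace * (b * b')) := by
  unfold el675
  simp only [add_mul, mul_add, Matrix.smul_mul, Matrix.mul_smul, Matrix.one_mul, Matrix.mul_one,
    smul_smul, sq_eq675 Γ, smul_sub, add_smul, sub_smul]
  module

theorem el675_comm (Γ : Matrix (Fin 2) (Fin 2) F) (a b a' b' : F) :
    el675 Γ a b * el675 Γ a' b' = el675 Γ a' b' * el675 Γ a b := by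
  rw [el675_mul, el675_mul]
  congr 1 <;> ring

theorem el675_scalar (Γ : Matrix (Fin 2) (Fin 2) F) (w : F) :
    el675 Γ w 0 = w • (1 : Matrix (Fin 2) (Fin 2) F) := by
  unfold el675
  rw [zero_smul, add_zero]

theorem el675_map (Γ : Matrix (Fin 2) (Fin 2) F) (s : F ≃+* F) (hΓ : Γ.map s = Γ) (a b : F) :
    (el675 Γ a b).map s = el675 Γ (s a) (s b) := by
  unfold el675
  ext i j
  have h := congrFun (congrFun hΓ i) j
  simp only [Matrix.map_apply] at h
  simp only [Matrix.map_apply, Matrix.add_apply, Matrix.smul_apply, smul_eq_mul, map_add,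
    map_mul, h, Matrix.one_apply]
  split_ifs <;> simp

/-- `w = A σ(A)` with `A = a + b Γ`. -/
def IsNm675 (Γ : Matrix (Fin 2) (Fin 2) F) (s : F ≃+* F) (w : F) : Prop :=
  ∃ a b : F, el675 Γ a b * el675 Γ (s a) (s b) = w • (1 : Matrix (Fin 2) (Fin 2) F)

theorem isNm675_iff (Γ : Matrix (Fin 2) (Fin 2) F) (s : F ≃+* F) (w : F) (a b : F)
    (h1 : a * s a - Γ.det * (b * s b) = w)
    (h2 : a * s b + b * s a + Γ.trace * (b * s b) = 0) : IsNm675 Γ s w := by
  refine ⟨a, b, ?_⟩
  rw [el675_mul, h1, h2, el675_scalar]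

theorem IsNm675.mul {Γ : Matrix (Fin 2) (Fin 2) F} {s : F ≃+* F} (hΓ : Γ.map s = Γ) {w w' : F}
    (h : IsNm675 Γ s w) (h' : IsNm675 Γ s w') : IsNm675 Γ s (w * w') := by
  obtain ⟨a, b, hab⟩ := h
  obtain ⟨a', b', hab'⟩ := h'
  refine ⟨a * a' - Γ.det * (b * b'), a * b' + b * a' + Γ.trace * (b * b'), ?_⟩
  have e1 : el675 Γ (s (a * a' - Γ.det * (b * b'))) (s (a * b' + b * a' + Γ.trace * (b * b')))
      = el675 Γ (s a) (s b) * el675 Γ (s a') (s b') := by
    rw [← el675_map Γ s hΓ, ← el675_mul, Matrix.map_mul, el675_map Γ s hΓ, el675_map Γ s hΓ]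
  rw [e1, ← el675_mul]
  calc el675 Γ a b * el675 Γ a' b' * (el675 Γ (s a) (s b) * el675 Γ (s a') (s b'))
      = el675 Γ a b * (el675 Γ a' b' * el675 Γ (s a) (s b)) * el675 Γ (s a') (s b') := by
        simp only [mul_assoc]
    _ = el675 Γ a b * (el675 Γ (s a) (s b) * el675 Γ a' b') * el675 Γ (s a') (s b') := by
        rw [el675_comm Γ a' b']
    _ = (el675 Γ a b * el675 Γ (s a) (s b)) * (el675 Γ a' b' * el675 Γ (s a') (s b')) := by
        simp only [mul_assoc]
    _ = (w * w') • (1 : Matrix (Fin 2) (Fin 2) F) := by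
        rw [hab, hab', Matrix.smul_mul, Matrix.one_mul, smul_smul]

theorem IsNm675.one (Γ : Matrix (Fin 2) (Fin 2) F) (s : F ≃+* F) : IsNm675 Γ s 1 :=
  isNm675_iff Γ s 1 1 0 (by simp) (by simp)

theorem IsNm675.pow {Γ : Matrix (Fin 2) (Fin 2) F} {s : F ≃+* F} (hΓ : Γ.map s = Γ) {w : F}
    (h : IsNm675 Γ s w) (n : ℕ) : IsNm675 Γ s (w ^ n) := by
  induction n with
  | zero => rw [pow_zero]; exact IsNm675.one Γ s
  | succ n ih => rw [pow_succ]; exact ih.mul hΓ h

end Alg

/-! ## The special norms -/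

section Norms

variable {k k' : Type} [Field k] [Field k']

/-- The matrix `Γ = i(γ)`. -/
def gam675 (i : k →+* k') (γ : GL (Fin 2) k) : Matrix (Fin 2) (Fin 2) k' :=
  ((Matrix.GeneralLinearGroup.map i γ : GL (Fin 2) k') : Matrix (Fin 2) (Fin 2) k')

theorem gam675_apply (i : k →+* k') (γ : GL (Fin 2) k) (a b : Fin 2) :
    gam675 i γ a b = i ((γ : Matrix (Fin 2) (Fin 2) k) a b) := rfl

theorem gam675_map (i : k →+* k') (s : k' ≃+* k') (hs : ∀ x : k, s (i x) = i x)
    (γ : GL (Fin 2) k) : (gam675 i γ).map s = gam675 i γ := by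
  ext a b
  rw [Matrix.map_apply, gam675_apply, hs]

theorem gam675_trace (i : k →+* k') (γ : GL (Fin 2) k) :
    (gam675 i γ).trace = i (γ : Matrix (Fin 2) (Fin 2) k).trace := by
  simp only [Matrix.trace, Matrix.diag_apply, Fin.sum_univ_two, gam675_apply, map_add]

theorem gam675_det (i : k →+* k') (γ : GL (Fin 2) k) :
    (gam675 i γ).det = i (γ : Matrix (Fin 2) (Fin 2) k).det := by
  simp only [Matrix.det_fin_two, gam675_apply, map_sub, map_mul]

/-- From `IsNm675` to the conclusion of `QuatCoreRamC385`. -/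
theorem isCoreNorm_of_isNm675 (i : k →+* k') (s : k' ≃+* k') (hs : ∀ x : k, s (i x) = i x)
    (γ : GL (Fin 2) k) (z : k) (hz : i z ≠ 0) (h : IsNm675 (gam675 i γ) s (i z)) :
    IsCoreNorm675 i s γ z := by
  obtain ⟨a, b, hab⟩ := h
  have hAB : el675 (gam675 i γ) a b * ((i z)⁻¹ • el675 (gam675 i γ) (s a) (s b)) = 1 := by
    rw [Matrix.mul_smul, hab, smul_smul, inv_mul_cancel₀ hz, one_smul]
  have hBA : ((i z)⁻¹ • el675 (gam675 i γ) (s a) (s b)) * el675 (gam675 i γ) a b = 1 := by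
    rw [Matrix.smul_mul, el675_comm, hab, smul_smul, inv_mul_cancel₀ hz, one_smul]
  refine ⟨⟨el675 (gam675 i γ) a b, (i z)⁻¹ • el675 (gam675 i γ) (s a) (s b), hAB, hBA⟩,
    a, b, rfl, ?_⟩
  have e : ((glAut s ⟨el675 (gam675 i γ) a b, (i z)⁻¹ • el675 (gam675 i γ) (s a) (s b),
      hAB, hBA⟩ : GL (Fin 2) k') : Matrix (Fin 2) (Fin 2) k')
      = (el675 (gam675 i γ) a b).map s := rfl
  rw [e, el675_map _ s (gam675_map i s hs γ)]
  exact hab

variable (i : k →+* k') (s : k' ≃+* k') (γ : GL (Fin 2) k)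

/-- Squares of elements of `k`. -/
theorem isNm_sq675 (hs : ∀ x : k, s (i x) = i x) (m : k) :
    IsNm675 (gam675 i γ) s (i (m ^ 2)) :=
  isNm675_iff _ s _ (i m) 0 (by rw [hs, map_pow]; ring) (by simp)

/-- `-c = θ σ(θ)`. -/
theorem isNm_theta675 (θ : k') (c : k) (hθ : s θ = -θ) (hc : θ ^ 2 = i c) :
    IsNm675 (gam675 i γ) s (i (-c)) :=
  isNm675_iff _ s _ θ 0 (by rw [hθ, map_neg, ← hc]; ring) (by simp)

/-- The discriminant `Δ = (2γ - t)²`. -/
theorem isNm_disc675 (hs : ∀ x : k, s (i x) = i x) :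
    IsNm675 (gam675 i γ) s (i (disc γ)) := by
  refine isNm675_iff _ s _ (-(i (γ : Matrix (Fin 2) (Fin 2) k).trace)) 2 ?_ ?_
  · rw [gam675_det, map_neg, hs, map_ofNat, disc]
    simp only [map_sub, map_mul, map_pow, map_ofNat]
    ring
  · rw [gam675_trace, map_neg, hs, map_ofNat]
    ring

/-- The norms of the third quadratic subalgebra: `x² - (Δ/c) y²`. -/
theorem isNm_third675 (hs : ∀ x : k, s (i x) = i x) (θ : k') (c : k) (hθ0 : θ ≠ 0)
    (hθ : s θ = -θ) (hc : θ ^ 2 = i c) (x y : k) :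
    IsNm675 (gam675 i γ) s (i (x ^ 2 - disc γ / c * y ^ 2)) := by
  have hc0 : i c ≠ 0 := by rw [← hc]; exact pow_ne_zero 2 hθ0
  have hθi : s θ⁻¹ = -θ⁻¹ := by rw [map_inv₀, hθ, inv_neg]
  refine isNm675_iff _ s _ (i x - i y * θ⁻¹ * i (γ : Matrix (Fin 2) (Fin 2) k).trace)
    (2 * i y * θ⁻¹) ?_ ?_
  · rw [gam675_det]
    simp only [map_sub, map_mul, hs, hθi, map_ofNat, disc, map_div₀, map_pow, ← hc]
    field_simp
    ring
  · rw [gam675_trace]
    simp only [map_sub, map_mul, hs, hθi, map_ofNat]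
    ring

/-- The case of a root in `k'`. -/
theorem isNm_root675 (hs : ∀ x : k, s (i x) = i x) (hss : ∀ y : k', s (s y) = y)
    (lam : k') (hlam : lam ^ 2 - i (γ : Matrix (Fin 2) (Fin 2) k).trace * lam
      + i (γ : Matrix (Fin 2) (Fin 2) k).det = 0) (hne : s lam ≠ lam) (z : k) :
    IsNm675 (gam675 i γ) s (i z) := by
  have hmu : (s lam) ^ 2 - i (γ : Matrix (Fin 2) (Fin 2) k).trace * s lam
      + i (γ : Matrix (Fin 2) (Fin 2) k).det = 0 := by
    have := congrArg s hlam
    simpa only [map_add, map_sub, map_mul, map_pow, hs, map_zero] using this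
  have hd : lam - s lam ≠ 0 := sub_ne_zero.mpr (Ne.symm hne)
  -- Vieta
  have hsum : lam + s lam = i (γ : Matrix (Fin 2) (Fin 2) k).trace := by
    have h : (lam - s lam) * (lam + s lam - i (γ : Matrix (Fin 2) (Fin 2) k).trace) = 0 := by
      linear_combination hlam - hmu
    rcases mul_eq_zero.mp h with h | h
    · exact absurd h hd
    · linear_combination h
  have hprod : lam * s lam = i (γ : Matrix (Fin 2) (Fin 2) k).det := by
    linear_combination (-1 : k') * hlam + lam * hsum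
  have hsb : s ((i z - 1) / (lam - s lam)) = -((i z - 1) / (lam - s lam)) := by
    rw [map_div₀, map_sub, map_sub, hs, map_one, hss, ← neg_sub lam (s lam), div_neg]
  refine isNm675_iff _ s _ (1 - (i z - 1) / (lam - s lam) * s lam) ((i z - 1) / (lam - s lam))
    ?_ ?_
  · rw [gam675_det, map_sub, map_mul, hsb, hss, map_one, ← hprod]
    field_simp
    ring
  · rw [gam675_trace, map_sub, map_mul, hsb, hss, map_one, ← hsum]
    field_simp
    ring

end Norms

/-! ## The top -/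

/-- **`QuatCoreRamC385` from the three leaves.** -/
theorem quatCoreRam_of_leaves675 (h1 : QcRamOddC675) (h2 : QcTameArithC675)
    (h3 : QcWildC675) : QuatCoreRamC385 := by
  rw [quatCoreRamC385_iff675]
  intro k k' _ _ _ _ q i s hQ z hz γ hreg hell
  have hcyc := hQ.ext.cyc
  have hs : ∀ x : k, s (i x) = i x := hcyc.fix_i
  have hss : ∀ y : k', s (s y) = y := fun y => by
    have := hcyc.order y
    rwa [pow_two] at this
  have : CharZero k := hQ.hk.char0
  have : CharZero k' := hQ.hk'.char0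
  have hiz : i z ≠ 0 := (map_ne_zero i).mpr hz
  have h2k : (2 : k) ≠ 0 := two_ne_zero
  have h2k' : (2 : k') ≠ 0 := two_ne_zero
  refine isCoreNorm_of_isNm675 i s hs γ z hiz ?_
  by_cases hroot : ∃ x : k', x ^ 2 - i (γ : Matrix (Fin 2) (Fin 2) k).trace * x
      + i (γ : Matrix (Fin 2) (Fin 2) k).det = 0
  · -- the characteristic polynomial has a root in `k'`
    obtain ⟨lam, hlam⟩ := hroot
    have hne : s lam ≠ lam := by
      intro hfix
      obtain ⟨x, hx⟩ := hcyc.fixed lam hfix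
      apply hell
      refine ⟨x, i.injective ?_⟩
      rw [map_zero, map_add, map_sub, map_mul, map_pow, hx]
      exact hlam
    exact isNm_root675 i s γ hs hss lam hlam hne z
  · rw [not_exists] at hroot
    rcases Nat.even_or_odd q with hq | hq
    · -- wild
      obtain ⟨ζ, a, b, hζ, hn⟩ := h3 k k' q i s hQ hq z hz γ hreg hell hroot
      refine ⟨a, b, ?_⟩
      have e : ((glAut s ζ : GL (Fin 2) k') : Matrix (Fin 2) (Fin 2) k')
          = (ζ : Matrix (Fin 2) (Fin 2) k').map s := rfl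
      have hζ' : (ζ : Matrix (Fin 2) (Fin 2) k') = el675 (gam675 i γ) a b := hζ
      rw [e, hζ', el675_map _ s (gam675_map i s hs γ)] at hn
      exact hn
    · -- tame
      obtain ⟨y, hy⟩ := hcyc.faithful 1 one_pos one_lt_two
      rw [pow_one] at hy
      have hθ0 : y - s y ≠ 0 := sub_ne_zero.mpr (Ne.symm hy)
      have hθ : s (y - s y) = -(y - s y) := by rw [map_sub, hss]; ring
      have hfix : s ((y - s y) ^ 2) = (y - s y) ^ 2 := by rw [map_pow, hθ]; ring
      obtain ⟨c, hc⟩ := hcyc.fixed _ hfix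
      have hc0 : c ≠ 0 := by
        intro h0
        rw [h0, map_zero] at hc
        exact hθ0 ((pow_eq_zero_iff two_ne_zero).mp hc.symm)
      have hΔ0 : disc γ ≠ 0 := hreg.ne_zero
      have hΔsq : ¬ IsSquare (disc γ) := by
        rintro ⟨r, hr⟩
        apply hell
        refine ⟨((γ : Matrix (Fin 2) (Fin 2) k).trace + r) / 2, ?_⟩
        unfold disc at hr
        field_simp
        linear_combination (-1 : k) * hr
      have hΔcsq : ¬ IsSquare (disc γ * c) := by
        rintro ⟨r, hr⟩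
        apply hroot ((i (γ : Matrix (Fin 2) (Fin 2) k).trace + i r / (y - s y)) / 2)
        have hr' : i (disc γ) * (y - s y) ^ 2 = i r * i r := by
          rw [← hc, ← map_mul, ← map_mul, hr]
        unfold disc at hr'
        simp only [map_sub, map_mul, map_pow, map_ofNat] at hr'
        field_simp
        linear_combination (-1 : k') * hr'
      have hodd := h1 k k' q i s hQ hq (y - s y) c hθ0 hθ hc.symm
      obtain ⟨n₁, n₂, m, x, w, hzz⟩ := h2 k q hQ.hk hq c (disc γ) hc0 hodd hΔ0 hΔsq hΔcsq z hz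
      have hΓ := gam675_map i s hs γ
      rw [hzz, map_mul, map_mul, map_mul, map_pow _ (-c), map_pow _ (disc γ)]
      exact (((isNm_sq675 i s γ hs m).mul hΓ ((isNm_theta675 i s γ _ c hθ hc.symm).pow hΓ n₁)).mul
        hΓ ((isNm_disc675 i s γ hs).pow hΓ n₂)).mul hΓ
        (isNm_third675 i s γ hs _ c hθ0 hθ hc.symm x w)

end Fermat.Agent.LT.T6.H675

end
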